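import Mathlib
import Fermat.Prelude.Thm_ModularForm_sturm_bound_of_isArithmetic
import Fermat.Agent.S23.Wiring
import Fermat.Agent.S23.RatSpan
import Fermat.Agent.S23.Interp
import Fermat.Agent.S23.IntegralityGen
import Fermat.Agent.S23.LevelOneSpan

/-!
# DS brick C1, group-generic part

The landed S23 chain (integral structure of `S_k(Γ₀(N))`) redone for an arbitrary arithmetic
subgroup `Γ ≤ SL(2, ℤ)` having `1` as a strict period:

* `span_int_of_frac` : if every cusp form of weight `k` on `Γ` is a quotient `P / Q` of two forms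
  in the `ℂ`-span of the forms with integral `q`-expansion, then `S_k(Γ)` is spanned over `ℂ` by
  cusp forms with integral `q`-expansion;
* `exists_fraction_of_sep` : the fraction hypothesis holds as soon as there is a separating pair
  `a, b` of integral forms of the same weight on `Γ`.
* `span_int_of_sep` : the two combined.
-/

set_option autoImplicit false

namespace Fermat.Agent.S48.IntBasis1

open UpperHalfPlane ModularForm PowerSeries SlashInvariantForm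
open Fermat.Agent.S23 Fermat.Agent.S23.Series Fermat.Agent.S23.Cert Fermat.Agent.S23.Wiring
open Fermat.Agent.S23.Defs Fermat.Agent.S23.RatSpan
open scoped MatrixGroups Manifold

noncomputable section

variable {Γ : Subgroup (GL (Fin 2) ℝ)} [Γ.IsArithmetic] [Γ.HasDetOne]

/-! ### The endgame for a general group -/

/-- The `q`-expansion as a linear map on weight-`k` cusp forms of level `Γ`. -/
def qExpCusp (hΓ : (1 : ℝ) ∈ Γ.strictPeriods) (k : ℤ) : CuspForm Γ k →ₗ[ℂ] PowerSeries ℂ where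
  toFun f := qExpansion 1 f
  map_add' f g := by
    rw [FunLike.coe_add]
    exact ModularForm.qExpansion_add one_pos hΓ f g
  map_smul' c f := by
    rw [FunLike.coe_smul]
    exact ModularForm.qExpansion_smul one_pos hΓ c f

omit [Γ.IsArithmetic] in
@[simp] theorem qExpCusp_apply (hΓ : (1 : ℝ) ∈ Γ.strictPeriods) (k : ℤ) (f : CuspForm Γ k) :
    qExpCusp hΓ k f = qExpansion 1 f := rfl

/-- The `q`-expansion as a linear map on weight-`w` modular forms of level `Γ`. -/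
def qExpMod (hΓ : (1 : ℝ) ∈ Γ.strictPeriods) (w : ℤ) : ModularForm Γ w →ₗ[ℂ] PowerSeries ℂ where
  toFun h := qExpansion 1 h
  map_add' f g := by
    rw [FunLike.coe_add]
    exact ModularForm.qExpansion_add one_pos hΓ f g
  map_smul' c f := by
    rw [FunLike.coe_smul]
    exact ModularForm.qExpansion_smul one_pos hΓ c f

/-- The Sturm bound of `Γ` in weight `k`. -/
def sturmBd (Γ : Subgroup (GL (Fin 2) ℝ)) (k : ℤ) : ℕ := (k * Γ.relIndex 𝒮ℒ).toNat / 12

omit [Γ.HasDetOne] in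
/-- Sturm bound for cusp forms on an arithmetic group. -/
theorem cusp_eq_zero_of_coeff_eq_zero (hΓ : (1 : ℝ) ∈ Γ.strictPeriods) {k : ℤ} (f : CuspForm Γ k)
    (h : ∀ n : ℕ, n ≤ sturmBd Γ k → (qExpansion 1 f).coeff n = 0) : f = 0 := by
  have h0 : ModularFormClass.modularForm f = 0 := by
    refine ModularForm.sturm_bound_of_isArithmetic hΓ ?_
    have h1 : ((sturmBd Γ k + 1 : ℕ) : ℕ∞) ≤
        (qExpansion 1 (ModularFormClass.modularForm f)).order := by
      refine PowerSeries.nat_le_order _ _ fun i hi => ?_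
      exact h i (Nat.lt_succ_iff.mp hi)
    refine lt_of_lt_of_le ?_ h1
    exact_mod_cast Nat.lt_succ_self _
  ext τ
  have := congrArg (fun g : ModularForm Γ k => g τ) h0
  simpa using this

/-- The abstract endgame for a general group. -/
theorem span_int_of_crit (hΓ : (1 : ℝ) ∈ Γ.strictPeriods) (k : ℤ) (Crit : PowerSeries ℂ → Prop)
    (h1 : ∀ φ, (∃ f : CuspForm Γ k, qExpansion 1 f = φ) ↔ Crit φ)
    (h2 : ∀ σ : ℂ ≃+* ℂ, ∀ φ, Crit φ → Crit (PowerSeries.map (σ : ℂ →+* ℂ) φ))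
    (h3 : ∀ φ, IsRat φ → Crit φ → ∃ D : ℕ, D ≠ 0 ∧ IsInt ((D : PowerSeries ℂ) * φ)) :
    Submodule.span ℂ {f : CuspForm Γ k | IsIntPS (qExpansion 1 f)} = ⊤ := by
  set V : Submodule ℂ (PowerSeries ℂ) := LinearMap.range (qExpCusp hΓ k) with hV
  set B : ℕ := sturmBd Γ k with hB
  have hinj : ∀ f ∈ V, (∀ n ≤ B, coeff n f = 0) → f = 0 := by
    rintro _ ⟨f, rfl⟩ hf
    rw [cusp_eq_zero_of_coeff_eq_zero hΓ f hf, map_zero]
  have hσ : ∀ (σ : ℂ ≃+* ℂ), ∀ f ∈ V, PowerSeries.map (σ : ℂ →+* ℂ) f ∈ V := by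
    rintro σ _ ⟨f, rfl⟩
    obtain ⟨g, hg⟩ := (h1 _).mpr (h2 σ _ ((h1 _).mp ⟨f, rfl⟩))
    exact ⟨g, hg⟩
  have hdesc := AutDescent.mem_span_isRat V B hinj hσ
  have hinj' : Function.Injective (qExpCusp hΓ k) := by
    rw [← LinearMap.ker_eq_bot, LinearMap.ker_eq_bot']
    intro f hf
    apply cusp_eq_zero_of_coeff_eq_zero hΓ f
    intro n _
    rw [← qExpCusp_apply hΓ, hf]; simp
  -- rational forms lie in the complex span of the integral forms
  have hrat : ∀ g : CuspForm Γ k, IsRat (qExpansion 1 g) →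
      g ∈ Submodule.span ℂ {f : CuspForm Γ k | IsIntPS (qExpansion 1 f)} := by
    intro g hg
    obtain ⟨D, hD, hDint⟩ := h3 _ hg ((h1 _).mp ⟨g, rfl⟩)
    have hD' : (D : ℂ) ≠ 0 := Nat.cast_ne_zero.mpr hD
    have hq : qExpansion 1 (((D : ℂ) • g : CuspForm Γ k) : ℍ → ℂ) =
        (D : PowerSeries ℂ) * qExpansion 1 g := by
      have h4 := (qExpCusp hΓ k).map_smul (D : ℂ) g
      simp only [qExpCusp_apply] at h4
      rw [h4]
      ext n
      rw [show (D : PowerSeries ℂ) = C (D : ℂ) from (map_natCast (C (R := ℂ)) D).symm, coeff_C_mul]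
      simp
    have hmem : (D : ℂ) • g ∈ {f : CuspForm Γ k | IsIntPS (qExpansion 1 f)} := by
      intro n
      obtain ⟨m, hm⟩ := hDint n
      refine ⟨m, ?_⟩
      rw [hq]
      exact hm
    have : g = (D : ℂ)⁻¹ • ((D : ℂ) • g) := by
      rw [smul_smul, inv_mul_cancel₀ hD', one_smul]
    rw [this]
    exact Submodule.smul_mem _ _ (Submodule.subset_span hmem)
  rw [eq_top_iff]
  intro f _
  have hf : qExpCusp hΓ k f ∈ Submodule.span ℂ {g | g ∈ V ∧ IsRat g} :=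
    hdesc _ ⟨f, rfl⟩
  -- pull back along the injective map `qExpCusp`
  have hsub : Submodule.span ℂ {g | g ∈ V ∧ IsRat g} ≤
      Submodule.map (qExpCusp hΓ k)
        (Submodule.span ℂ {f : CuspForm Γ k | IsIntPS (qExpansion 1 f)}) := by
    rw [Submodule.span_le]
    rintro _ ⟨⟨g, rfl⟩, hg⟩
    exact ⟨g, hrat g hg, rfl⟩
  obtain ⟨f', hf', hff'⟩ := hsub hf
  rw [← hinj' hff']
  exact hf'

/-- The endgame in certificate form, for a general group. -/
theorem span_int_of_cert (hΓ : (1 : ℝ) ∈ Γ.strictPeriods) (k : ℤ) {W : Type*}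
    (Qs Ps : W → Set (PowerSeries ℂ)) (Es : ℕ → ℕ → Set (PowerSeries ℂ))
    (hQs : ∀ w, ∀ M ∈ Qs w, IsBddDen M) (hPs : ∀ w, ∀ M ∈ Ps w, IsBddDen M)
    (hEs : ∀ n i, ∀ M ∈ Es n i, IsBddDen M)
    (h : ∀ φ, (∃ f : CuspForm Γ k, qExpansion 1 f = φ) ↔
      ((∃ w, CritI (Qs w) (Ps w) φ) ∧ CritII Es φ)) :
    Submodule.span ℂ {f : CuspForm Γ k | IsIntPS (qExpansion 1 f)} = ⊤ := by
  refine span_int_of_crit hΓ k _ h ?_ ?_
  · rintro σ φ ⟨⟨w, hw⟩, h2⟩
    exact ⟨⟨w, hw.map (fun M hM => (hQs w M hM).isRat) (fun M hM => (hPs w M hM).isRat) _⟩,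
      h2.map (fun n i M hM => (hEs n i M hM).isRat) _⟩
  · rintro φ hφ ⟨⟨w, hw⟩, h2⟩
    exact exists_isInt_of_cert (hQs w) (hPs w) hEs hφ hw h2

/-! ### The wiring for a general group -/

/-- Generators for numerators/denominators: `q`-expansions of weight-`w` forms on `Γ` with
integral `q`-expansion. -/
def QsG (Γ : Subgroup (GL (Fin 2) ℝ)) (w : ℤ) : Set (PowerSeries ℂ) :=
  {p | ∃ h : ModularForm Γ w, IsIntPS (qExpansion 1 h) ∧ qExpansion 1 h = p}

omit [Γ.IsArithmetic] [Γ.HasDetOne] in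
theorem isBddDen_of_mem_QsG {w : ℤ} {M : PowerSeries ℂ} (hM : M ∈ QsG Γ w) : IsBddDen M := by
  obtain ⟨h, hh, rfl⟩ := hM
  exact IsInt.isBddDen hh

omit [Γ.IsArithmetic] in
theorem exists_of_mem_span_QsG (hΓ : (1 : ℝ) ∈ Γ.strictPeriods) {w : ℤ} {x : PowerSeries ℂ}
    (hx : x ∈ Submodule.span ℂ (QsG Γ w)) : ∃ h : ModularForm Γ w, qExpansion 1 h = x := by
  have : Submodule.span ℂ (QsG Γ w) ≤ LinearMap.range (qExpMod hΓ w) := by
    rw [Submodule.span_le]
    rintro _ ⟨h, _, rfl⟩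
    exact ⟨h, rfl⟩
  exact this hx

omit [Γ.IsArithmetic] in
theorem mem_span_QsG_of_mem_ratSpan (hΓ : (1 : ℝ) ∈ Γ.strictPeriods) {w : ℤ}
    {Q : ModularForm Γ w} (hQ : Q ∈ ratSpan Γ w) :
    qExpansion 1 Q ∈ Submodule.span ℂ (QsG Γ w) := by
  have h1 : qExpMod hΓ w Q ∈ Submodule.map (qExpMod hΓ w) (ratSpan Γ w) := ⟨Q, hQ, rfl⟩
  rw [ratSpan, Submodule.map_span] at h1
  refine Submodule.span_mono ?_ h1
  rintro _ ⟨h, hh, rfl⟩
  exact ⟨h, hh, rfl⟩

/-- **The wiring for a general group**: the integral structure of `S_k(Γ)` from the fraction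
lemma alone (the norm polynomial, the level-one adapter and the integrality criterion are the
landed group-generic S23 lemmas). -/
theorem span_int_of_frac (hΓ : (1 : ℝ) ∈ Γ.strictPeriods) (k : ℤ)
    (hfrac : ∀ f : CuspForm Γ k, ∃ (w : ℤ) (Q : ModularForm Γ w)
      (P : ModularForm Γ (w + k)), Q ≠ 0 ∧ (∀ τ : ℍ, f τ * Q τ = P τ) ∧
      Q ∈ ratSpan Γ w ∧ P ∈ ratSpan Γ (w + k)) :
    Submodule.span ℂ {f : CuspForm Γ k | IsIntPS (qExpansion 1 f)} = ⊤ := by
  refine span_int_of_cert hΓ k (QsG Γ) (fun w => QsG Γ (w + k)) (Es k)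
    (fun w M hM => isBddDen_of_mem_QsG hM) (fun w M hM => isBddDen_of_mem_QsG hM)
    (fun n i M hM => isBddDen_of_mem_Es hM) ?_
  intro φ
  constructor
  · -- forward direction
    rintro ⟨f, rfl⟩
    have hfn : IsNice (f : ℍ → ℂ) := isNice_of_modularFormClass hΓ f
    constructor
    · obtain ⟨w, Q, P, hQ0, hfQ, hQr, hPr⟩ := hfrac f
      refine ⟨w, qExpansion 1 Q, mem_span_QsG_of_mem_ratSpan hΓ hQr, qExpansion 1 P,
        mem_span_QsG_of_mem_ratSpan hΓ hPr, ?_, ?_⟩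
      · exact fun h => hQ0 ((ModularForm.qExpansion_eq_zero_iff one_pos hΓ Q).mp h)
      · have hQn : IsNice (Q : ℍ → ℂ) := isNice_of_modularFormClass hΓ Q
        rw [← hfn.qExp_mul hQn]
        congr 1
        funext τ
        exact hfQ τ
    · obtain ⟨n, c, hrel⟩ : ∃ (n : ℕ) (c : (s : Fin n) → CuspForm 𝒮ℒ (k * ((s : ℕ) + 1))),
          ∀ τ : ℍ, f τ ^ n + ∑ s : Fin n, c s τ * f τ ^ (n - 1 - (s : ℕ)) = 0 :=
        ⟨_, Interp.exists_charpoly f⟩
      have hcn : ∀ s : Fin n, IsNice (c s : ℍ → ℂ) := fun s => isNice_of_modularFormClass hSL (c s)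
      refine ⟨n, fun i => if h : i < n then qExpansion 1 (c ⟨n - 1 - i, by omega⟩) else 0, ?_, ?_⟩
      · intro i hi
        beta_reduce
        rw [dif_pos hi]
        exact mem_span_Es_of_mem_span ⟨n - 1 - i, by omega⟩ (by simp; omega)
          (LevelOneSpan.cusp_mem_span _ _)
      · have hfun : (f : ℍ → ℂ) ^ n + ∑ s : Fin n, (c s : ℍ → ℂ) * (f : ℍ → ℂ) ^ (n - 1 - (s : ℕ)) = 0 := by
          funext τ
          simpa using hrel τ
        have hq := congrArg (qExpansion 1) hfun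
        rw [(hfn.pow n).qExp_add (IsNice.sum fun s _ => (hcn s).mul (hfn.pow _)),
          hfn.qExp_pow, IsNice.qExp_sum (fun s _ => (hcn s).mul (hfn.pow _)), qExpansion_zero] at hq
        refine Eq.trans ?_ hq
        congr 1
        rw [← Finset.sum_range_reflect, Finset.sum_range fun i => _]
        apply Finset.sum_congr rfl
        intro s _
        rw [(hcn s).qExp_mul (hfn.pow _), hfn.qExp_pow]
        have h1 : n - 1 - (s : ℕ) < n := by omega
        have h2 : n - 1 - (n - 1 - (s : ℕ)) = (s : ℕ) := by omega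
        beta_reduce
        rw [dif_pos h1]
        have h3 : (⟨n - 1 - (n - 1 - (s : ℕ)), by omega⟩ : Fin n) = s := Fin.ext h2
        rw [h3]
  · -- backward direction
    rintro ⟨⟨w, Q, hQ, P, hP, hQ0, hφQ⟩, n, e, he, hmon⟩
    obtain ⟨Qf, rfl⟩ := exists_of_mem_span_QsG hΓ hQ
    obtain ⟨Pf, rfl⟩ := exists_of_mem_span_QsG hΓ hP
    have hQf0 : Qf ≠ 0 := by
      rintro rfl
      apply hQ0
      simpa using qExpansion_zero 1
    have hc : ∀ s : Fin n, ∃ c : CuspForm 𝒮ℒ (k * ((s : ℕ) + 1)),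
        qExpansion 1 c = e (n - 1 - (s : ℕ)) := fun s =>
      exists_of_mem_span_Es s (by omega) (he _ (by omega))
    choose c hcq using hc
    have hPn : IsNice (Pf : ℍ → ℂ) := isNice_of_modularFormClass hΓ Pf
    have hQn : IsNice (Qf : ℍ → ℂ) := isNice_of_modularFormClass hΓ Qf
    have hcn : ∀ s : Fin n, IsNice (c s : ℍ → ℂ) := fun s => isNice_of_modularFormClass hSL (c s)
    set R : ℍ → ℂ := (Pf : ℍ → ℂ) ^ n + ∑ s : Fin n, (c s : ℍ → ℂ) *
      (Pf : ℍ → ℂ) ^ (n - 1 - (s : ℕ)) * (Qf : ℍ → ℂ) ^ ((s : ℕ) + 1) with hR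
    have hRn : IsNice R :=
      (hPn.pow n).add (IsNice.sum fun s _ => ((hcn s).mul (hPn.pow _)).mul (hQn.pow _))
    have hRq : qExpansion 1 R = 0 := by
      rw [hR, (hPn.pow n).qExp_add (IsNice.sum fun s _ => ((hcn s).mul (hPn.pow _)).mul (hQn.pow _)),
        hPn.qExp_pow, IsNice.qExp_sum (fun s _ => ((hcn s).mul (hPn.pow _)).mul (hQn.pow _))]
      have hterm : ∀ s : Fin n, qExpansion 1 ((c s : ℍ → ℂ) * (Pf : ℍ → ℂ) ^ (n - 1 - (s : ℕ)) *
          (Qf : ℍ → ℂ) ^ ((s : ℕ) + 1)) =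
          qExpansion 1 Qf ^ n * (e (n - 1 - (s : ℕ)) * φ ^ (n - 1 - (s : ℕ))) := by
        intro s
        rw [((hcn s).mul (hPn.pow _)).qExp_mul (hQn.pow _), (hcn s).qExp_mul (hPn.pow _),
          hPn.qExp_pow, hQn.qExp_pow, hcq s, ← hφQ, mul_pow]
        have h3 : qExpansion 1 Qf ^ n =
            qExpansion 1 Qf ^ (n - 1 - (s : ℕ)) * qExpansion 1 Qf ^ ((s : ℕ) + 1) := by
          rw [← pow_add]
          congr 1
          omega
        rw [h3]
        ring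
      rw [Finset.sum_congr rfl fun s _ => hterm s, ← Finset.mul_sum, ← hφQ, mul_pow]
      have hsum : ∑ s : Fin n, e (n - 1 - (s : ℕ)) * φ ^ (n - 1 - (s : ℕ)) =
          ∑ i ∈ Finset.range n, e i * φ ^ i := by
        rw [← Finset.sum_range_reflect, Finset.sum_range fun i => e (n - 1 - i) * φ ^ (n - 1 - i)]
      rw [hsum, mul_comm (φ ^ n), ← mul_add, hmon, mul_zero]
    have hR0 := hRn.eq_zero hRq
    obtain ⟨F, hF⟩ := IntegralityGen.integrality_criterion_arithmetic Γ Pf Qf hQf0 n c (fun τ => by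
      have := congrFun hR0 τ
      simpa [hR] using this)
    refine ⟨F, ?_⟩
    have hFn : IsNice (F : ℍ → ℂ) := isNice_of_modularFormClass hΓ F
    have h4 : qExpansion 1 F * qExpansion 1 Qf = φ * qExpansion 1 Qf := by
      rw [← hFn.qExp_mul hQn, hφQ]
      congr 1
      funext τ
      exact hF τ
    exact mul_right_cancel₀ hQ0 h4

/-! ### The fraction lemma from a separating pair -/

omit [Γ.IsArithmetic] in
/-- A polynomial expression `∑ g_m a^m b^(μ-1-m)` with level-one coefficients lies in `ratSpan`. -/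
lemma inRatSpan_sum_gen (hle : Γ ≤ 𝒮ℒ) (hΓ : (1 : ℝ) ∈ Γ.strictPeriods) (μ : ℕ) (K : ℤ) {w : ℤ}
    (a b : ModularForm Γ w) (ha : IsIntPS (qExpansion 1 a)) (hb : IsIntPS (qExpansion 1 b))
    (g : Fin μ → ModularForm 𝒮ℒ (K + w * ((μ : ℤ) - 1))) :
    InRatSpan Γ (2 * w * ((μ : ℤ) - 1) + K)
      (fun τ => ∑ m : Fin μ, g m τ * a τ ^ (m : ℕ) * b τ ^ (μ - 1 - (m : ℕ))) := by
  have hta : InRatSpan Γ w a := InRatSpan.of_int a ha
  have htb : InRatSpan Γ w b := InRatSpan.of_int b hb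
  have hsum : InRatSpan Γ (2 * w * ((μ : ℤ) - 1) + K)
      (∑ m : Fin μ, (⇑(g m) * (⇑a) ^ (m : ℕ) * (⇑b) ^ (μ - 1 - (m : ℕ)))) := by
    refine InRatSpan.sum Finset.univ fun m _ => ?_
    have hm : (m : ℕ) < μ := m.2
    have hcast : ((μ - 1 - (m : ℕ) : ℕ) : ℤ) = (μ : ℤ) - 1 - (m : ℕ) := by omega
    refine InRatSpan.cast ?_ (InRatSpan.mul hΓ (InRatSpan.mul hΓ
      (InRatSpan.of_levelOne hle (g m)) (InRatSpan.pow hΓ hta (m : ℕ)))
      (InRatSpan.pow hΓ htb (μ - 1 - (m : ℕ))))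
    rw [hcast]
    ring
  convert hsum using 1
  funext τ
  simp [Finset.sum_apply]

/-- **The fraction lemma for a general group.** If `a`, `b` are forms of the same weight on `Γ`
with integral `q`-expansions such that no factor `a · b^l − a^l · b` (`l` a nontrivial coset of
`Γ` in `SL(2, ℤ)`) vanishes identically, then every cusp form on `Γ` is a quotient `P / Q` of two
modular forms on `Γ` lying in the `ℂ`-span of forms with integral `q`-expansion. -/
theorem exists_fraction_of_sep (hle : Γ ≤ 𝒮ℒ) (hΓ : (1 : ℝ) ∈ Γ.strictPeriods) {w : ℤ}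
    (a b : ModularForm Γ w) (ha : IsIntPS (qExpansion 1 a)) (hb : IsIntPS (qExpansion 1 b))
    (hsep : ∀ l : 𝒮ℒ ⧸ Γ.subgroupOf 𝒮ℒ, l ≠ ⟦1⟧ → ∃ τ : ℍ,
      a τ * quotientFunc (ℋ := 𝒮ℒ) b l τ - quotientFunc (ℋ := 𝒮ℒ) a l τ * b τ ≠ 0)
    (k : ℤ) (f : CuspForm Γ k) :
    ∃ (w' : ℤ) (Q : ModularForm Γ w') (P : ModularForm Γ (w' + k)),
      Q ≠ 0 ∧ (∀ τ, f τ * Q τ = P τ) ∧ Q ∈ ratSpan Γ w' ∧ P ∈ ratSpan Γ (w' + k) := by
  classical
  let _ := Fintype.ofFinite (𝒮ℒ ⧸ Γ.subgroupOf 𝒮ℒ)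
  set μ : ℕ := Nat.card (𝒮ℒ ⧸ Γ.subgroupOf 𝒮ℒ) with hμ
  obtain ⟨g, hg⟩ := Interp.exists_interp (𝒢 := Γ) (ModularFormClass.modularForm f) a b
  obtain ⟨g1, hg1⟩ := Interp.exists_interp (𝒢 := Γ) (1 : ModularForm Γ 0) a b
  obtain ⟨P, hP, hPfun⟩ := inRatSpan_sum_gen hle hΓ μ k a b ha hb g
  obtain ⟨Q, hQ, hQfun⟩ := InRatSpan.cast (w' := 2 * w * ((μ : ℤ) - 1)) (by ring)
    (inRatSpan_sum_gen hle hΓ μ 0 a b ha hb g1)
  -- the separating function does not vanish identically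
  have hD : ∃ τ : ℍ, ∏ l ∈ Finset.univ.erase (⟦1⟧ : 𝒮ℒ ⧸ Γ.subgroupOf 𝒮ℒ),
      (a τ * quotientFunc (ℋ := 𝒮ℒ) b l τ - quotientFunc (ℋ := 𝒮ℒ) a l τ * b τ) ≠ 0 :=
    Interp.prod_sep_ne_zero a b hsep
  refine ⟨2 * w * ((μ : ℤ) - 1), Q, P, ?_, ?_, hQ, hP⟩
  · obtain ⟨τ, hτ⟩ := hD
    intro hQ0
    apply hτ
    have h1 := hg1 τ
    have h2 := congrFun hQfun τ
    rw [hQ0] at h2
    simp only [ModularForm.one_coe_eq_one, Pi.one_apply, one_mul] at h1
    rw [h1]
    exact h2.symm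
  · intro τ
    have h1 := hg1 τ
    have h2 := congrFun hQfun τ
    have h3 := hg τ
    have h4 := congrFun hPfun τ
    simp only [ModularForm.one_coe_eq_one, Pi.one_apply, one_mul] at h1
    rw [h2, h4, ← h1]
    exact h3

/-- **Integral structure from a separating pair** (group-generic form of S23). -/
theorem span_int_of_sep (hle : Γ ≤ 𝒮ℒ) (hΓ : (1 : ℝ) ∈ Γ.strictPeriods) {w : ℤ}
    (a b : ModularForm Γ w) (ha : IsIntPS (qExpansion 1 a)) (hb : IsIntPS (qExpansion 1 b))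
    (hsep : ∀ l : 𝒮ℒ ⧸ Γ.subgroupOf 𝒮ℒ, l ≠ ⟦1⟧ → ∃ τ : ℍ,
      a τ * quotientFunc (ℋ := 𝒮ℒ) b l τ - quotientFunc (ℋ := 𝒮ℒ) a l τ * b τ ≠ 0)
    (k : ℤ) :
    Submodule.span ℂ {f : CuspForm Γ k | IsIntPS (qExpansion 1 f)} = ⊤ :=
  span_int_of_frac hΓ k fun f => exists_fraction_of_sep hle hΓ a b ha hb hsep k f

end

end Fermat.Agent.S48.IntBasis1
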