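import Mathlib
import Fermat.Agent.S48.IntBasis1.Gen
import Fermat.Agent.S23.LevelRaise

/-!
# DS brick C1: from a separating form to the integral structure, through `𝒢.adjoinNegOne`

The Lagrange interpolation of `Gen.lean` needs a group containing `-1` (the factor of the coset
of `-1` vanishes identically).  So for a group `𝒢 ≤ SL(2, ℤ)`:

* even-weight forms on `𝒢` are forms on `𝒢.adjoinNegOne` (`liftMod`, `liftCusp`);
* a separating form `t` of even weight on `𝒢` (no `γ` outside `±𝒢` fixes `t`) and a nonzero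
  integral level-one form `B` of the same weight give the fraction lemma on `𝒢.adjoinNegOne`,
  hence, by restriction, for every even-weight cusp form on `𝒢`;
* odd weight: multiply by a nonzero integral form of odd weight (if `-1 ∈ 𝒢` there is nothing
  to prove).

Exit: `span_int_of_sep_pm` (group-generic) and `span_int_gamma1_of_sep` (for `Γ₁(M)`).
-/

set_option autoImplicit false

namespace Fermat.Agent.S48.IntBasis1

open UpperHalfPlane ModularForm PowerSeries SlashInvariantForm CongruenceSubgroup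
open Fermat.Agent.S23 Fermat.Agent.S23.Defs Fermat.Agent.S23.RatSpan
open scoped MatrixGroups Manifold

noncomputable section

/-- In even weight, `-g` and `g` act in the same way. -/
theorem slash_neg_of_even {w : ℤ} (hw : Even w) (f : ℍ → ℂ) (g : GL (Fin 2) ℝ) :
    f ∣[w] (-g) = f ∣[w] g := by
  ext τ
  have hdet : (-g).det = g.det := by
    ext
    simp [Matrix.det_neg]
  rw [ModularForm.slash_apply, ModularForm.slash_apply, UpperHalfPlane.neg_smul, denom_neg,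
    hdet, Even.neg_zpow (Even.neg hw)]
  congr 2
  simp [UpperHalfPlane.σ, hdet]

variable {𝒢 : Subgroup (GL (Fin 2) ℝ)}

/-- An even-weight modular form on `𝒢` is a modular form on `𝒢.adjoinNegOne`. -/
def liftMod {w : ℤ} (hw : Even w) (t : ModularForm 𝒢 w) : ModularForm 𝒢.adjoinNegOne w where
  toFun := t
  slash_action_eq' γ hγ := by
    rcases Subgroup.mem_adjoinNegOne_iff.mp hγ with h | h
    · exact t.slash_action_eq' γ h
    · have h2 := t.slash_action_eq' (-γ) h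
      rwa [slash_neg_of_even hw] at h2
  holo' := t.holo'
  bdd_at_cusps' {c} hc :=
    t.bdd_at_cusps' ((Subgroup.commensurable_adjoinNegOne_self 𝒢).isCusp_iff.mp hc)

@[simp] theorem coe_liftMod {w : ℤ} (hw : Even w) (t : ModularForm 𝒢 w) :
    ⇑(liftMod hw t) = ⇑t := rfl

/-- An even-weight cusp form on `𝒢` is a cusp form on `𝒢.adjoinNegOne`. -/
def liftCusp {w : ℤ} (hw : Even w) (t : CuspForm 𝒢 w) : CuspForm 𝒢.adjoinNegOne w where
  toFun := t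
  slash_action_eq' γ hγ := by
    rcases Subgroup.mem_adjoinNegOne_iff.mp hγ with h | h
    · exact t.slash_action_eq' γ h
    · have h2 := t.slash_action_eq' (-γ) h
      rwa [slash_neg_of_even hw] at h2
  holo' := t.holo'
  zero_at_cusps' {c} hc :=
    t.zero_at_cusps' ((Subgroup.commensurable_adjoinNegOne_self 𝒢).isCusp_iff.mp hc)

@[simp] theorem coe_liftCusp {w : ℤ} (hw : Even w) (t : CuspForm 𝒢 w) :
    ⇑(liftCusp hw t) = ⇑t := rfl

/-- Restriction to a smaller group preserves `InRatSpan`. -/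
theorem inRatSpan_restrict {Γ Γ' : Subgroup (GL (Fin 2) ℝ)} [Γ.HasDetOne] [Γ'.HasDetOne]
    (h : Γ' ≤ Γ) {w : ℤ} {F : ℍ → ℂ} (hF : InRatSpan Γ w F) : InRatSpan Γ' w F := by
  obtain ⟨f, hf, rfl⟩ := hF
  refine ⟨LevelRaise.restrict h f, ?_, rfl⟩
  refine Submodule.span_induction
    (p := fun (x : ModularForm Γ w) _ => LevelRaise.restrict h x ∈ ratSpan Γ' w) ?_ ?_ ?_ ?_ hf
  · intro x hx
    exact Submodule.subset_span hx
  · have : LevelRaise.restrict h (0 : ModularForm Γ w) = 0 := by ext τ; rfl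
    rw [this]; exact Submodule.zero_mem _
  · intro x y _ _ hx hy
    have : LevelRaise.restrict h (x + y) = LevelRaise.restrict h x + LevelRaise.restrict h y := by
      ext τ; rfl
    rw [this]; exact Submodule.add_mem _ hx hy
  · intro a x _ hx
    have : LevelRaise.restrict h (a • x) = a • LevelRaise.restrict h x := by ext τ; rfl
    rw [this]; exact Submodule.smul_mem _ a hx

/-- Restriction to a smaller group preserves `ratSpan`. -/
theorem restrict_mem_ratSpan {Γ Γ' : Subgroup (GL (Fin 2) ℝ)} [Γ.HasDetOne] [Γ'.HasDetOne]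
    (h : Γ' ≤ Γ) {w : ℤ} {F : ModularForm Γ w} (hF : F ∈ ratSpan Γ w) :
    LevelRaise.restrict h F ∈ ratSpan Γ' w := by
  obtain ⟨f, hf, hfF⟩ := inRatSpan_restrict h (⟨F, hF, rfl⟩ : InRatSpan Γ w F)
  have : f = LevelRaise.restrict h F := DFunLike.coe_injective hfF
  rwa [← this]

/-- The translates of the restriction of a level-one form are the form itself. -/
theorem quotientFunc_restrict_levelOne (hle : 𝒢 ≤ 𝒮ℒ) {w : ℤ} (B : ModularForm 𝒮ℒ w)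
    (l : 𝒮ℒ ⧸ 𝒢.subgroupOf 𝒮ℒ) :
    quotientFunc (ℋ := 𝒮ℒ) (LevelRaise.restrict hle B) l = ⇑B := by
  induction l using Quotient.inductionOn with
  | h r =>
    obtain ⟨γ, hγ⟩ : ∃ γ : SL(2, ℤ), Matrix.SpecialLinearGroup.mapGL ℝ γ = r.val⁻¹ := inv_mem r.2
    rw [quotientFunc_mk, ← hγ]
    exact SlashInvariantForm.slash_action_eqn B _ ⟨γ, rfl⟩

/-- Element form of a separating hypothesis implies its coset form. -/
theorem quotientFunc_ne_of_sep {w : ℤ} (a : ModularForm 𝒢 w)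
    (h : ∀ γ : SL(2, ℤ), (⇑a) ∣[w] γ = ⇑a → Matrix.SpecialLinearGroup.mapGL ℝ γ ∈ 𝒢)
    (l : 𝒮ℒ ⧸ 𝒢.subgroupOf 𝒮ℒ) (hl : l ≠ ⟦1⟧) : quotientFunc (ℋ := 𝒮ℒ) a l ≠ ⇑a := by
  induction l using Quotient.inductionOn with
  | h r =>
    obtain ⟨γ, hγ⟩ : ∃ γ : SL(2, ℤ), Matrix.SpecialLinearGroup.mapGL ℝ γ = r.val⁻¹ := inv_mem r.2
    rw [quotientFunc_mk, ← hγ]
    intro heq
    apply hl
    have h2 : Matrix.SpecialLinearGroup.mapGL ℝ γ ∈ 𝒢 := h γ heq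
    rw [hγ] at h2
    refine (QuotientGroup.eq (s := 𝒢.subgroupOf 𝒮ℒ)).mpr ?_
    rw [Subgroup.mem_subgroupOf]
    simpa using h2

/-- **Fraction lemma from a separating form and a level-one homogeniser.** -/
theorem exists_fraction_of_sep_levelOne [𝒢.IsArithmetic] [𝒢.HasDetOne] (hle : 𝒢 ≤ 𝒮ℒ)
    (h1 : (1 : ℝ) ∈ 𝒢.strictPeriods) {w : ℤ} (a : ModularForm 𝒢 w)
    (ha : IsIntPS (qExpansion 1 a)) (B : ModularForm 𝒮ℒ w) (hB : IsIntPS (qExpansion 1 B))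
    (hB0 : B ≠ 0)
    (hsep : ∀ l : 𝒮ℒ ⧸ 𝒢.subgroupOf 𝒮ℒ, l ≠ ⟦1⟧ → quotientFunc (ℋ := 𝒮ℒ) a l ≠ ⇑a)
    (k : ℤ) (f : CuspForm 𝒢 k) :
    ∃ (w' : ℤ) (Q : ModularForm 𝒢 w') (P : ModularForm 𝒢 (w' + k)),
      Q ≠ 0 ∧ (∀ τ, f τ * Q τ = P τ) ∧ Q ∈ ratSpan 𝒢 w' ∧ P ∈ ratSpan 𝒢 (w' + k) := by
  refine exists_fraction_of_sep hle h1 a (LevelRaise.restrict hle B) ha hB (fun l hl => ?_) k f
  rw [quotientFunc_restrict_levelOne]
  by_contra hcon
  push Not at hcon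
  have hmul : (⇑a - quotientFunc (ℋ := 𝒮ℒ) a l) * ⇑B = 0 := by
    ext τ
    have := hcon τ
    simp only [Pi.mul_apply, Pi.sub_apply, Pi.zero_apply, sub_mul]
    exact this
  rcases (UpperHalfPlane.mul_eq_zero_iff
    ((ModularFormClass.holo a).sub (Interp.mdiff_quotientFunc a l)) (ModularFormClass.holo B)).mp
    hmul with h | h
  · exact hsep l hl (sub_eq_zero.mp h).symm
  · exact hB0 (DFunLike.coe_injective h)

/-! ### Passing through `𝒢.adjoinNegOne` -/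

section pm

variable [𝒢.IsArithmetic] [𝒢.HasDetOne]

omit [𝒢.IsArithmetic] [𝒢.HasDetOne] in
theorem adjoinNegOne_le_SL (hle : 𝒢 ≤ 𝒮ℒ) : 𝒢.adjoinNegOne ≤ 𝒮ℒ := by
  intro g hg
  rcases Subgroup.mem_adjoinNegOne_iff.mp hg with h | h
  · exact hle h
  · obtain ⟨γ, hγ⟩ := hle h
    refine ⟨-γ, ?_⟩
    have : Matrix.SpecialLinearGroup.mapGL ℝ (-γ) = -Matrix.SpecialLinearGroup.mapGL ℝ γ := by
      ext i j
      simp [Matrix.SpecialLinearGroup.mapGL]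
    rw [this, hγ, neg_neg]

/-- The fraction lemma in even weight: lift to `𝒢.adjoinNegOne`, interpolate there, restrict. -/
theorem exists_fraction_even (hle : 𝒢 ≤ 𝒮ℒ) (h1 : (1 : ℝ) ∈ 𝒢.strictPeriods) {w : ℤ}
    (hw : Even w) (t : ModularForm 𝒢 w) (ht : IsIntPS (qExpansion 1 t))
    (B : ModularForm 𝒮ℒ w) (hB : IsIntPS (qExpansion 1 B)) (hB0 : B ≠ 0)
    (hsep : ∀ γ : SL(2, ℤ), (⇑t) ∣[w] γ = ⇑t →
      Matrix.SpecialLinearGroup.mapGL ℝ γ ∈ 𝒢.adjoinNegOne)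
    {k : ℤ} (hk : Even k) (f : CuspForm 𝒢 k) :
    ∃ (w' : ℤ) (Q P : ℍ → ℂ), Q ≠ 0 ∧ (∀ τ, f τ * Q τ = P τ) ∧
      InRatSpan 𝒢 w' Q ∧ InRatSpan 𝒢 (w' + k) P := by
  have : 𝒢.adjoinNegOne.HasDetOne := (Subgroup.hasDetOne_adjoinNegOne_iff (by decide)).2 ‹_›
  have hle' : 𝒢.adjoinNegOne ≤ 𝒮ℒ := adjoinNegOne_le_SL hle
  have h1' : (1 : ℝ) ∈ 𝒢.adjoinNegOne.strictPeriods := 𝒢.strictPeriods_le_periods h1
  obtain ⟨w', Q, P, hQ0, hfQ, hQ, hP⟩ :=
    exists_fraction_of_sep_levelOne (𝒢 := 𝒢.adjoinNegOne) hle' h1' (liftMod hw t) ht B hB hB0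
      (fun l hl => quotientFunc_ne_of_sep (liftMod hw t) hsep l hl) k (liftCusp hk f)
  refine ⟨w', ⇑Q, ⇑P, ?_, hfQ, inRatSpan_restrict 𝒢.le_adjoinNegOne ⟨Q, hQ, rfl⟩,
    inRatSpan_restrict 𝒢.le_adjoinNegOne ⟨P, hP, rfl⟩⟩
  intro h
  exact hQ0 (DFunLike.coe_injective h)

/-- The fraction lemma for every weight: odd weights by multiplication with an odd seed. -/
theorem exists_fraction_pm (hle : 𝒢 ≤ 𝒮ℒ) (h1 : (1 : ℝ) ∈ 𝒢.strictPeriods) {w : ℤ}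
    (hw : Even w) (t : ModularForm 𝒢 w) (ht : IsIntPS (qExpansion 1 t))
    (B : ModularForm 𝒮ℒ w) (hB : IsIntPS (qExpansion 1 B)) (hB0 : B ≠ 0)
    (hsep : ∀ γ : SL(2, ℤ), (⇑t) ∣[w] γ = ⇑t →
      Matrix.SpecialLinearGroup.mapGL ℝ γ ∈ 𝒢.adjoinNegOne)
    (hodd : (-1 : GL (Fin 2) ℝ) ∈ 𝒢 ∨ ∃ (w₀ : ℤ) (g₀ : ModularForm 𝒢 w₀),
      Odd w₀ ∧ IsIntPS (qExpansion 1 g₀) ∧ g₀ ≠ 0)
    (k : ℤ) (f : CuspForm 𝒢 k) :
    ∃ (w' : ℤ) (Q : ModularForm 𝒢 w') (P : ModularForm 𝒢 (w' + k)),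
      Q ≠ 0 ∧ (∀ τ, f τ * Q τ = P τ) ∧ Q ∈ ratSpan 𝒢 w' ∧ P ∈ ratSpan 𝒢 (w' + k) := by
  -- function-level statement
  suffices hfun : ∃ (w' : ℤ) (Q P : ℍ → ℂ), Q ≠ 0 ∧ (∀ τ, f τ * Q τ = P τ) ∧
      InRatSpan 𝒢 w' Q ∧ InRatSpan 𝒢 (w' + k) P by
    obtain ⟨w', Q, P, hQ0, hfQ, ⟨Qf, hQf, rfl⟩, ⟨Pf, hPf, rfl⟩⟩ := hfun
    refine ⟨w', Qf, Pf, ?_, hfQ, hQf, hPf⟩
    rintro rfl
    exact hQ0 rfl
  rcases Int.even_or_odd k with hk | hk
  · exact exists_fraction_even hle h1 hw t ht B hB hB0 hsep hk f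
  · rcases hodd with hneg | ⟨w₀, g₀, hw₀, hg₀, hg₀0⟩
    · -- `-1 ∈ 𝒢` and odd weight: `f = 0`
      have hf0 : ∀ τ, f τ = 0 := by
        intro τ
        have h0 := ModularForm.eq_zero_of_neg_one_mem hneg hk (ModularFormClass.modularForm f)
        have := congrArg (fun g : ModularForm 𝒢 k => g τ) h0
        simpa using this
      refine ⟨0, 1, 0, one_ne_zero, fun τ => by simp [hf0 τ], InRatSpan.one, InRatSpan.zero _⟩
    · -- multiply by the odd seed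
      obtain ⟨w', Q', P', hQ0, hfQ, hQ, hP⟩ :=
        exists_fraction_even hle h1 hw t ht B hB hB0 hsep (Odd.add_odd hk hw₀)
          (f.mulModularForm g₀)
      have hg₀r : InRatSpan 𝒢 w₀ g₀ := InRatSpan.of_int g₀ hg₀
      refine ⟨w₀ + w', ⇑g₀ * Q', P', ?_, ?_, InRatSpan.mul h1 hg₀r hQ,
        InRatSpan.cast (by ring) hP⟩
      · obtain ⟨Qf, -, rfl⟩ := hQ
        intro h
        rcases (UpperHalfPlane.mul_eq_zero_iff (ModularFormClass.holo g₀)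
          (ModularFormClass.holo Qf)).mp h with h | h
        · exact hg₀0 (DFunLike.coe_injective h)
        · exact hQ0 h
      · intro τ
        have := hfQ τ
        simp only [Pi.mul_apply]
        rw [← this, ← mul_assoc]
        rfl

/-- **Integral structure of `S_k(𝒢)` from a separating form**, every weight `k`. -/
theorem span_int_of_sep_pm (hle : 𝒢 ≤ 𝒮ℒ) (h1 : (1 : ℝ) ∈ 𝒢.strictPeriods) {w : ℤ}
    (hw : Even w) (t : ModularForm 𝒢 w) (ht : IsIntPS (qExpansion 1 t))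
    (B : ModularForm 𝒮ℒ w) (hB : IsIntPS (qExpansion 1 B)) (hB0 : B ≠ 0)
    (hsep : ∀ γ : SL(2, ℤ), (⇑t) ∣[w] γ = ⇑t →
      Matrix.SpecialLinearGroup.mapGL ℝ γ ∈ 𝒢.adjoinNegOne)
    (hodd : (-1 : GL (Fin 2) ℝ) ∈ 𝒢 ∨ ∃ (w₀ : ℤ) (g₀ : ModularForm 𝒢 w₀),
      Odd w₀ ∧ IsIntPS (qExpansion 1 g₀) ∧ g₀ ≠ 0)
    (k : ℤ) :
    Submodule.span ℂ {f : CuspForm 𝒢 k | IsIntPS (qExpansion 1 f)} = ⊤ :=
  span_int_of_frac h1 k fun f => exists_fraction_pm hle h1 hw t ht B hB hB0 hsep hodd k f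

end pm

/-! ### The case of `Γ₁(M)` -/

section gamma1

theorem mapGL_neg (γ : SL(2, ℤ)) :
    Matrix.SpecialLinearGroup.mapGL ℝ (-γ) = -Matrix.SpecialLinearGroup.mapGL ℝ γ := by
  ext i j
  simp [Matrix.SpecialLinearGroup.mapGL]

/-- `1` is a strict period of `Γ₁(M)`. -/
theorem one_mem_strictPeriods_gamma1 (M : ℕ) :
    (1 : ℝ) ∈ ((Gamma1 M : Subgroup SL(2, ℤ)) : Subgroup (GL (Fin 2) ℝ)).strictPeriods := by
  have hT : ModularGroup.T ∈ Gamma1 M := by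
    rw [Gamma1_mem]
    simp [ModularGroup.T]
  rw [Subgroup.strictPeriods_eq_zmultiples_one_of_T_mem hT]
  exact AddSubgroup.mem_zmultiples 1

theorem gamma1_le_SL (M : ℕ) :
    ((Gamma1 M : Subgroup SL(2, ℤ)) : Subgroup (GL (Fin 2) ℝ)) ≤ 𝒮ℒ := by
  rintro x ⟨γ, -, rfl⟩
  exact ⟨γ, rfl⟩

/-- For `M ≤ 2`, `-1 ∈ Γ₁(M)`. -/
theorem neg_one_mem_gamma1 {M : ℕ} (hM : M ∣ 2) :
    (-1 : GL (Fin 2) ℝ) ∈ ((Gamma1 M : Subgroup SL(2, ℤ)) : Subgroup (GL (Fin 2) ℝ)) := by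
  refine ⟨-1, ?_, by rw [mapGL_neg, map_one]⟩
  have h2 : ((2 : ℕ) : ZMod M) = 0 := (ZMod.natCast_eq_zero_iff 2 M).mpr hM
  have h3 : (-1 : ZMod M) = 1 := by
    have : (1 : ZMod M) + 1 = 0 := by
      rw [← h2]; push_cast; ring
    exact neg_eq_of_add_eq_zero_left this
  rw [SetLike.mem_coe, Gamma1_mem]
  simp [h3]

/-- **(C★), every weight, from a separating form.**  `S_k(Γ₁(M))` is spanned over `ℂ` by cusp
forms with integral `q`-expansion, given: an even-weight form `t` on `Γ₁(M)` with integral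
`q`-expansion fixed by no `γ ∈ SL(2, ℤ)` outside `±Γ₁(M)`, a nonzero integral level-one form `B`
of the same weight and, for `3 ≤ M`, a nonzero integral form of odd weight on `Γ₁(M)`. -/
theorem span_int_gamma1_of_sep (M : ℕ) [NeZero M] {w : ℤ} (hw : Even w)
    (t : ModularForm (Gamma1 M) w) (ht : IsIntPS (qExpansion 1 t))
    (B : ModularForm 𝒮ℒ w) (hB : IsIntPS (qExpansion 1 B)) (hB0 : B ≠ 0)
    (hsep : ∀ γ : SL(2, ℤ), (⇑t) ∣[w] γ = ⇑t → γ ∈ Gamma1 M ∨ -γ ∈ Gamma1 M)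
    (hodd : 3 ≤ M → ∃ (w₀ : ℤ) (g₀ : ModularForm (Gamma1 M) w₀),
      Odd w₀ ∧ IsIntPS (qExpansion 1 g₀) ∧ g₀ ≠ 0)
    (k : ℤ) :
    Submodule.span ℂ {f : CuspForm (Gamma1 M) k | IsIntPS (qExpansion 1 f)} = ⊤ := by
  refine span_int_of_sep_pm (gamma1_le_SL M) (one_mem_strictPeriods_gamma1 M) hw t ht B hB hB0
    (fun γ hγ => ?_) ?_ k
  · refine Subgroup.mem_adjoinNegOne_iff.mpr ((hsep γ hγ).imp (fun h => ⟨γ, h, rfl⟩) fun h => ?_)
    exact ⟨-γ, h, mapGL_neg γ⟩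
  · rcases Nat.lt_or_ge M 3 with hM | hM
    · left
      apply neg_one_mem_gamma1
      have hM0 : M ≠ 0 := NeZero.ne M
      interval_cases M <;> simp_all
    · exact Or.inr (hodd hM)

/-- The same in the `qCoeff` vocabulary of the frozen statements. -/
theorem span_qCoeff_gamma1_of_sep (M : ℕ) [NeZero M] {w : ℤ} (hw : Even w)
    (t : ModularForm (Gamma1 M) w) (ht : ∀ n : ℕ, ∃ m : ℤ, ModularFormClass.qCoeff t n = (m : ℂ))
    (B : ModularForm 𝒮ℒ w) (hB : IsIntPS (qExpansion 1 B)) (hB0 : B ≠ 0)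
    (hsep : ∀ γ : SL(2, ℤ), (⇑t) ∣[w] γ = ⇑t → γ ∈ Gamma1 M ∨ -γ ∈ Gamma1 M)
    (hodd : 3 ≤ M → ∃ (w₀ : ℤ) (g₀ : ModularForm (Gamma1 M) w₀),
      Odd w₀ ∧ (∀ n : ℕ, ∃ m : ℤ, ModularFormClass.qCoeff g₀ n = (m : ℂ)) ∧ g₀ ≠ 0)
    (k : ℤ) :
    Submodule.span ℂ {f : CuspForm (Gamma1 M) k |
      ∀ n : ℕ, ∃ m : ℤ, ModularFormClass.qCoeff f n = (m : ℂ)} = ⊤ :=
  span_int_gamma1_of_sep M hw t ht B hB hB0 hsep hodd k

end gamma1

end

end Fermat.Agent.S48.IntBasis1
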