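import Mathlib
import Fermat.Agent.S48.IntBasis1.Pm

/-!
# DS brick C1: ready-made homogenisers `E₄` (weight 4) and `E₄⁴` (weight 16)

Corollaries of `span_qCoeff_gamma1_of_sep` for a separating form of weight `4` or `16`.
-/

set_option autoImplicit false

namespace Fermat.Agent.S48.IntBasis1

open UpperHalfPlane ModularForm PowerSeries SlashInvariantForm CongruenceSubgroup
open Fermat.Agent.S23 Fermat.Agent.S23.Defs Fermat.Agent.S23.RatSpan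
open scoped MatrixGroups Manifold

noncomputable section

theorem isIntPS_qExp_E₄ : IsIntPS (qExpansion 1 E₄) := LevelOneSpan.isIntPS_qExpansion_E₄

theorem E₄_ne_zero_form : (E₄ : ModularForm 𝒮ℒ 4) ≠ 0 := by
  intro h
  have h1 : (qExpansion 1 E₄).coeff 0 = 1 :=
    EisensteinSeries.E_qExpansion_coeff_zero (by norm_num) (by decide)
  rw [h, FunLike.coe_zero, qExpansion_zero] at h1
  simp at h1

/-- `E₄⁴` as a level-one modular form of weight `16`. -/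
def E4pow4 : ModularForm 𝒮ℒ 16 :=
  ModularForm.mcast (by norm_num) ((E₄.mul E₄).mul (E₄.mul E₄))

theorem coe_E4pow4 : ⇑E4pow4 = (⇑E₄ * ⇑E₄) * (⇑E₄ * ⇑E₄) := rfl

theorem isIntPS_qExp_E4pow4 : IsIntPS (qExpansion 1 E4pow4) := by
  have h : qExpansion 1 E4pow4 = (qExpansion 1 E₄ * qExpansion 1 E₄) *
      (qExpansion 1 E₄ * qExpansion 1 E₄) := by
    have hn : Wiring.IsNice (⇑E₄ : ℍ → ℂ) := Wiring.isNice_of_modularFormClass Wiring.hSL E₄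
    rw [coe_E4pow4, (hn.mul hn).qExp_mul (hn.mul hn), hn.qExp_mul hn]
  rw [h]
  exact IsIntPS.mul (IsIntPS.mul isIntPS_qExp_E₄ isIntPS_qExp_E₄)
    (IsIntPS.mul isIntPS_qExp_E₄ isIntPS_qExp_E₄)

theorem E4pow4_ne_zero : E4pow4 ≠ 0 := by
  intro h
  have h0 : (⇑E₄ * ⇑E₄) * (⇑E₄ * ⇑E₄) = (0 : ℍ → ℂ) := by
    rw [← coe_E4pow4, h]; rfl
  have hol : MDiff (⇑E₄ : ℍ → ℂ) := ModularFormClass.holo E₄
  have hE : (⇑E₄ : ℍ → ℂ) ≠ 0 := fun h' => E₄_ne_zero_form (DFunLike.coe_injective h')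
  rcases (UpperHalfPlane.mul_eq_zero_iff (hol.mul hol) (hol.mul hol)).mp h0 with h1 | h1 <;>
  · rcases (UpperHalfPlane.mul_eq_zero_iff hol hol).mp h1 with h2 | h2 <;> exact hE h2

/-- (C★) for every weight from a separating form of weight `4`. -/
theorem span_qCoeff_gamma1_of_sep4 (M : ℕ) [NeZero M]
    (t : ModularForm (Gamma1 M) 4) (ht : ∀ n : ℕ, ∃ m : ℤ, ModularFormClass.qCoeff t n = (m : ℂ))
    (hsep : ∀ γ : SL(2, ℤ), (⇑t) ∣[(4 : ℤ)] γ = ⇑t → γ ∈ Gamma1 M ∨ -γ ∈ Gamma1 M)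
    (hodd : 3 ≤ M → ∃ (w₀ : ℤ) (g₀ : ModularForm (Gamma1 M) w₀),
      Odd w₀ ∧ (∀ n : ℕ, ∃ m : ℤ, ModularFormClass.qCoeff g₀ n = (m : ℂ)) ∧ g₀ ≠ 0)
    (k : ℤ) :
    Submodule.span ℂ {f : CuspForm (Gamma1 M) k |
      ∀ n : ℕ, ∃ m : ℤ, ModularFormClass.qCoeff f n = (m : ℂ)} = ⊤ :=
  span_qCoeff_gamma1_of_sep M (by decide) t ht E₄ isIntPS_qExp_E₄ E₄_ne_zero_form hsep hodd k

/-- (C★) for every weight from a separating form of weight `16`. -/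
theorem span_qCoeff_gamma1_of_sep16 (M : ℕ) [NeZero M]
    (t : ModularForm (Gamma1 M) 16) (ht : ∀ n : ℕ, ∃ m : ℤ, ModularFormClass.qCoeff t n = (m : ℂ))
    (hsep : ∀ γ : SL(2, ℤ), (⇑t) ∣[(16 : ℤ)] γ = ⇑t → γ ∈ Gamma1 M ∨ -γ ∈ Gamma1 M)
    (hodd : 3 ≤ M → ∃ (w₀ : ℤ) (g₀ : ModularForm (Gamma1 M) w₀),
      Odd w₀ ∧ (∀ n : ℕ, ∃ m : ℤ, ModularFormClass.qCoeff g₀ n = (m : ℂ)) ∧ g₀ ≠ 0)
    (k : ℤ) :
    Submodule.span ℂ {f : CuspForm (Gamma1 M) k |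
      ∀ n : ℕ, ∃ m : ℤ, ModularFormClass.qCoeff f n = (m : ℂ)} = ⊤ :=
  span_qCoeff_gamma1_of_sep M (by decide) t ht E4pow4 isIntPS_qExp_E4pow4 E4pow4_ne_zero hsep hodd k

end

end Fermat.Agent.S48.IntBasis1
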