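import Mathlib
import Fermat.Agent.S48.IntBasis1.Homog
import Fermat.Agent.S23.TForm

/-!
# DS brick C1: the `λ`-trick

A weight-4 integral form `t₁` on `Γ₁(M)` which is moved by every diamond (every
`γ ∈ Γ₀(M)` outside `±Γ₁(M)`) can be completed to a separating form `t₁ + n · E₄(Mτ)` for
`±Γ₁(M)`: the landed `S23.TForm.tForm M = E₄(Mτ)` is moved by every `γ ∉ Γ₀(M)`, and each coset
excludes at most one `n`.  No information about `t₁` at the other cusps is needed.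

Consequences: (C★) in every weight from a diamond-moved form (`span_qCoeff_gamma1_of_diamond`),
and unconditionally for `M ∣ 2` (`span_qCoeff_gamma1_of_dvd_two`).
-/

set_option autoImplicit false

namespace Fermat.Agent.S48.IntBasis1

open UpperHalfPlane ModularForm PowerSeries SlashInvariantForm CongruenceSubgroup Filter Topology
open Fermat.Agent.S23 Fermat.Agent.S23.Defs Fermat.Agent.S23.RatSpan
open scoped MatrixGroups Manifold

noncomputable section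

variable (M : ℕ) [NeZero M]

/-- `E₄(Mτ)` as a modular form on `Γ₁(M)`. -/
def t0 : ModularForm (Gamma1 M) 4 :=
  LevelRaise.restrict (Subgroup.map_mono (Gamma1_in_Gamma0 M)) (TForm.tForm M)

theorem coe_t0 : (⇑(t0 M) : ℍ → ℂ) = ⇑(TForm.tForm M) := rfl

theorem isIntPS_t0 : IsIntPS (qExpansion 1 (t0 M)) := TForm.isIntPS_tForm M

variable {M}

/-- `E₄(Mτ)` is fixed only by `Γ₀(M)`. -/
theorem mem_gamma0_of_t0_slash {γ : SL(2, ℤ)} (h : (⇑(t0 M)) ∣[(4 : ℤ)] γ = ⇑(t0 M)) :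
    γ ∈ Gamma0 M := by
  by_contra hγ
  obtain ⟨c', hc', hlim⟩ := TForm.exists_tendsto_slash_ne M hγ
  rw [← coe_t0, h] at hlim
  exact hc' (tendsto_nhds_unique hlim (TForm.tendsto_tForm M))

omit [NeZero M] in
/-- For `γ ∈ Γ₀(M)`, membership in `±Γ₁(M)` is read off the lower right entry. -/
theorem mem_gamma1_or_neg {γ : SL(2, ℤ)} (hγ : γ ∈ Gamma0 M)
    (h : ((γ 1 1 : ℤ) : ZMod M) = 1 ∨ ((γ 1 1 : ℤ) : ZMod M) = -1) :
    γ ∈ Gamma1 M ∨ -γ ∈ Gamma1 M := by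
  have hc : ((γ 1 0 : ℤ) : ZMod M) = 0 := Gamma0_mem.mp hγ
  have hdet : ((γ 0 0 : ℤ) : ZMod M) * ((γ 1 1 : ℤ) : ZMod M) = 1 := by
    have h1 : γ 0 0 * γ 1 1 - γ 0 1 * γ 1 0 = 1 := by
      have := γ.det_coe
      rw [Matrix.det_fin_two] at this
      exact this
    have h2 := congrArg (Int.cast : ℤ → ZMod M) h1
    push_cast at h2
    rw [hc, mul_zero, sub_zero] at h2
    exact h2
  rcases h with h | h
  · left
    rw [Gamma1_mem]
    refine ⟨?_, h, hc⟩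
    rw [h, mul_one] at hdet
    exact hdet
  · right
    rw [Gamma1_mem]
    have ha : ((γ 0 0 : ℤ) : ZMod M) = -1 := by
      rw [h, mul_neg, mul_one, neg_eq_iff_eq_neg] at hdet
      exact hdet
    refine ⟨?_, ?_, ?_⟩
    · simp [ha]
    · simp [h]
    · simp [hc]

/-- **The `λ`-trick.** A weight-4 integral form on `Γ₁(M)` moved by every diamond can be
completed to a separating form for `±Γ₁(M)`. -/
theorem exists_sep_of_diamond (t₁ : ModularForm (Gamma1 M) 4)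
    (ht₁ : IsIntPS (qExpansion 1 t₁))
    (hd : ∀ γ : SL(2, ℤ), γ ∈ Gamma0 M → (⇑t₁) ∣[(4 : ℤ)] γ = ⇑t₁ →
      γ ∈ Gamma1 M ∨ -γ ∈ Gamma1 M) :
    ∃ t : ModularForm (Gamma1 M) 4, IsIntPS (qExpansion 1 t) ∧
      ∀ γ : SL(2, ℤ), (⇑t) ∣[(4 : ℤ)] γ = ⇑t → γ ∈ Gamma1 M ∨ -γ ∈ Gamma1 M := by
  classical
  set T : ℕ → ModularForm (Gamma1 M) 4 := fun n => t₁ + (n : ℂ) • t0 M with hT
  have hTcoe : ∀ n, (⇑(T n) : ℍ → ℂ) = ⇑t₁ + (n : ℂ) • ⇑(t0 M) := fun n => rfl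
  have hslash : ∀ n (γ : SL(2, ℤ)), (⇑(T n)) ∣[(4 : ℤ)] γ =
      (⇑t₁) ∣[(4 : ℤ)] γ + (n : ℂ) • ((⇑(t0 M)) ∣[(4 : ℤ)] γ) := by
    intro n γ
    rw [hTcoe, SlashAction.add_slash, ModularForm.SL_smul_slash]
  -- each `γ` outside `±Γ₁(M)` excludes at most one `n`
  have key : ∀ γ : SL(2, ℤ), ¬ (γ ∈ Gamma1 M ∨ -γ ∈ Gamma1 M) →
      {n : ℕ | (⇑(T n)) ∣[(4 : ℤ)] γ = ⇑(T n)}.Subsingleton := by
    intro γ hγ n hn m hm
    by_contra hnm
    simp only [Set.mem_ofPred_eq] at hn hm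
    rw [hslash, hTcoe] at hn hm
    have h0 : (⇑(t0 M)) ∣[(4 : ℤ)] γ = ⇑(t0 M) := by
      funext τ
      have e1 := congrFun hn τ
      have e2 := congrFun hm τ
      simp only [Pi.add_apply, Pi.smul_apply, smul_eq_mul] at e1 e2
      have e3 : ((n : ℂ) - (m : ℂ)) * (((⇑(t0 M)) ∣[(4 : ℤ)] γ) τ - (t0 M) τ) = 0 := by
        linear_combination e1 - e2
      rcases mul_eq_zero.mp e3 with h | h
      · exact absurd (Nat.cast_injective (sub_eq_zero.mp h)) hnm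
      · exact sub_eq_zero.mp h
    have h1 : (⇑t₁) ∣[(4 : ℤ)] γ = ⇑t₁ := by
      rw [h0] at hn
      exact add_right_cancel hn
    exact hγ (hd γ (mem_gamma0_of_t0_slash h0) h1)
  -- finitely many cosets, hence finitely many excluded `n`
  let S : (SL(2, ℤ) ⧸ Gamma1 M) → Set ℕ := fun q =>
    if (q.out⁻¹ ∈ Gamma1 M ∨ -q.out⁻¹ ∈ Gamma1 M) then ∅
    else {n : ℕ | (⇑(T n)) ∣[(4 : ℤ)] q.out⁻¹ = ⇑(T n)}
  have hSfin : (⋃ q, S q).Finite := by
    refine Set.finite_iUnion fun q => ?_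
    by_cases h : (q.out⁻¹ ∈ Gamma1 M ∨ -q.out⁻¹ ∈ Gamma1 M)
    · simp only [S, if_pos h]
      exact Set.finite_empty
    · simp only [S, if_neg h]
      exact (key _ h).finite
  obtain ⟨n, hn⟩ := hSfin.exists_notMem
  refine ⟨T n, ?_, fun γ hγ => ?_⟩
  · -- integrality
    have h1 := one_mem_strictPeriods_gamma1 M
    have hq : qExpansion 1 (T n) = qExpansion 1 t₁ + (n : ℂ) • qExpansion 1 (t0 M) := by
      have := (qExpMod h1 4).map_add t₁ ((n : ℂ) • t0 M)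
      rw [(qExpMod h1 4).map_smul] at this
      exact this
    rw [hq]
    intro i
    obtain ⟨a, ha⟩ := ht₁ i
    obtain ⟨b, hb⟩ := isIntPS_t0 M i
    exact ⟨a + n * b, by simp [ha, hb]⟩
  · by_contra hcon
    apply hn
    set q : SL(2, ℤ) ⧸ Gamma1 M := QuotientGroup.mk γ⁻¹ with hq
    obtain ⟨δ, hδ⟩ : ∃ δ : Gamma1 M, q.out = γ⁻¹ * δ := QuotientGroup.mk_out_eq_mul (Gamma1 M) γ⁻¹
    have hout : q.out⁻¹ = (δ : SL(2, ℤ))⁻¹ * γ := by rw [hδ, mul_inv_rev, inv_inv]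
    have hnot : ¬ (q.out⁻¹ ∈ Gamma1 M ∨ -q.out⁻¹ ∈ Gamma1 M) := by
      rw [hout]
      rintro (h | h)
      · exact hcon (Or.inl (by simpa using (Gamma1 M).mul_mem δ.2 h))
      · refine hcon (Or.inr ?_)
        have := (Gamma1 M).mul_mem δ.2 h
        simpa using this
    refine Set.mem_iUnion.mpr ⟨q, ?_⟩
    simp only [S, if_neg hnot, Set.mem_ofPred_eq]
    rw [hout, SlashAction.slash_mul]
    have hδinv : (⇑(T n)) ∣[(4 : ℤ)] ((δ : SL(2, ℤ))⁻¹) = ⇑(T n) :=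
      SlashInvariantForm.slash_action_eqn (T n) _ ⟨_, (Gamma1 M).inv_mem δ.2, rfl⟩
    rw [hδinv]
    exact hγ

/-- (C★) for every weight from a diamond-moved integral form of weight `4` (and an odd seed
when `3 ≤ M`). -/
theorem span_qCoeff_gamma1_of_diamond (t₁ : ModularForm (Gamma1 M) 4)
    (ht₁ : ∀ n : ℕ, ∃ m : ℤ, ModularFormClass.qCoeff t₁ n = (m : ℂ))
    (hd : ∀ γ : SL(2, ℤ), γ ∈ Gamma0 M → (⇑t₁) ∣[(4 : ℤ)] γ = ⇑t₁ →
      ((γ 1 1 : ℤ) : ZMod M) = 1 ∨ ((γ 1 1 : ℤ) : ZMod M) = -1)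
    (hodd : 3 ≤ M → ∃ (w₀ : ℤ) (g₀ : ModularForm (Gamma1 M) w₀),
      Odd w₀ ∧ (∀ n : ℕ, ∃ m : ℤ, ModularFormClass.qCoeff g₀ n = (m : ℂ)) ∧ g₀ ≠ 0)
    (k : ℤ) :
    Submodule.span ℂ {f : CuspForm (Gamma1 M) k |
      ∀ n : ℕ, ∃ m : ℤ, ModularFormClass.qCoeff f n = (m : ℂ)} = ⊤ := by
  obtain ⟨t, ht, hsep⟩ := exists_sep_of_diamond t₁ ht₁
    (fun γ hγ h => mem_gamma1_or_neg hγ (hd γ hγ h))
  exact span_qCoeff_gamma1_of_sep4 M t ht hsep hodd k

/-- (C★) for every weight, unconditionally, at the levels `M ∣ 2`. -/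
theorem span_qCoeff_gamma1_of_dvd_two (hM : M ∣ 2) (k : ℤ) :
    Submodule.span ℂ {f : CuspForm (Gamma1 M) k |
      ∀ n : ℕ, ∃ m : ℤ, ModularFormClass.qCoeff f n = (m : ℂ)} = ⊤ := by
  have h2 : ((2 : ℕ) : ZMod M) = 0 := (ZMod.natCast_eq_zero_iff 2 M).mpr hM
  have hunit : ∀ x y : ZMod M, x * y = 1 → y = 1 ∨ y = -1 := by
    have hM2 : M = 1 ∨ M = 2 := by
      have := Nat.le_of_dvd (by norm_num) hM
      have hM0 : M ≠ 0 := NeZero.ne M
      interval_cases M <;> simp_all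
    rcases hM2 with rfl | rfl
    · intro x y _; left; exact Subsingleton.elim _ _
    · decide
  obtain ⟨t, ht, hsep⟩ := exists_sep_of_diamond (M := M) 0
    (by
      have : qExpansion 1 ((0 : ModularForm (Gamma1 M) 4) : ℍ → ℂ) = 0 := by
        rw [FunLike.coe_zero]; exact qExpansion_zero 1
      rw [this]; exact IsIntPS.zero)
    (fun γ hγ _ => by
      refine mem_gamma1_or_neg hγ ?_
      have hc : ((γ 1 0 : ℤ) : ZMod M) = 0 := Gamma0_mem.mp hγ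
      have h1 : γ 0 0 * γ 1 1 - γ 0 1 * γ 1 0 = 1 := by
        have := γ.det_coe
        rw [Matrix.det_fin_two] at this
        exact this
      have h3 := congrArg (Int.cast : ℤ → ZMod M) h1
      push_cast at h3
      rw [hc, mul_zero, sub_zero] at h3
      exact hunit _ _ h3)
  refine span_qCoeff_gamma1_of_sep4 M t ht hsep (fun h3 => ?_) k
  have := Nat.le_of_dvd (by norm_num) hM
  omega

end

end Fermat.Agent.S48.IntBasis1
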