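import Mathlib
import Fermat.Agent.S48.IntBasis1

/-!
# DS brick C.Int: finite integral bases and the coefficient module

Corollaries of `span_qCoeff_gamma1`:

* `finiteDimensional_cuspForm_gamma1` : `S_k(Γ₁(M))` is finite-dimensional (Sturm bound);
* `exists_int_basis` : a finite `ℂ`-basis of `S_k(Γ₁(M))` consisting of forms with integral
  `q`-expansion;
* `exists_finset_qCoeff` : the `q`-coefficients of any `f ∈ S_k(Γ₁(M))` lie in the `ℤ`-span of a
  finite set of complex numbers.
-/

set_option autoImplicit false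

namespace Fermat.Agent.S48.IntBasis1

open UpperHalfPlane ModularForm PowerSeries CongruenceSubgroup
open Fermat.Agent.S23 Fermat.Agent.S23.Defs
open scoped MatrixGroups Manifold

noncomputable section

/-- `S_k(Γ₁(M))` is finite-dimensional. -/
theorem finiteDimensional_cuspForm_gamma1 (M : ℕ) [NeZero M] (k : ℤ) :
    FiniteDimensional ℂ (CuspForm (Gamma1 M) k) := by
  have h1 := one_mem_strictPeriods_gamma1 M
  set B : ℕ := sturmBd ((Gamma1 M : Subgroup SL(2, ℤ)) : Subgroup (GL (Fin 2) ℝ)) k with hB
  let tr : CuspForm (Gamma1 M) k →ₗ[ℂ] (Fin (B + 1) → ℂ) :=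
    { toFun := fun f i => (qExpCusp h1 k f).coeff i
      map_add' := fun f g => by
        funext i
        simp only [map_add, Pi.add_apply]
      map_smul' := fun c f => by
        funext i
        simp only [map_smul, Pi.smul_apply, RingHom.id_apply, smul_eq_mul] }
  refine FiniteDimensional.of_injective tr ?_
  refine (injective_iff_map_eq_zero _).mpr fun f hf => ?_
  refine cusp_eq_zero_of_coeff_eq_zero h1 f fun n hn => ?_
  have := congrFun hf ⟨n, Nat.lt_succ_of_le hn⟩
  simpa [tr] using this

/-- **A finite integral basis of `S_k(Γ₁(M))`.** -/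
theorem exists_int_basis (M : ℕ) [NeZero M] (k : ℤ) :
    ∃ (r : ℕ) (g : Fin r → CuspForm (Gamma1 M) k),
      LinearIndependent ℂ g ∧ Submodule.span ℂ (Set.range g) = ⊤ ∧
      ∀ i n, ∃ z : ℤ, ModularFormClass.qCoeff (g i) n = (z : ℂ) := by
  have := finiteDimensional_cuspForm_gamma1 M k
  set S : Set (CuspForm (Gamma1 M) k) :=
    {f | ∀ n : ℕ, ∃ m : ℤ, ModularFormClass.qCoeff f n = (m : ℂ)} with hS
  obtain ⟨b, hbS, hbspan, hbli⟩ := exists_linearIndependent ℂ S
  have hbfin : b.Finite := hbli.setFinite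
  have hbFinite : Finite b := hbfin
  obtain ⟨r, ⟨e⟩⟩ := Finite.exists_equiv_fin b
  refine ⟨r, fun i => (e.symm i : CuspForm (Gamma1 M) k), ?_, ?_, ?_⟩
  · exact hbli.comp _ e.symm.injective
  · have hrange : Set.range (fun i => (e.symm i : CuspForm (Gamma1 M) k)) = b := by
      ext x
      constructor
      · rintro ⟨i, rfl⟩
        exact (e.symm i).2
      · intro hx
        exact ⟨e ⟨x, hx⟩, by simp⟩
    rw [hrange, hbspan]
    exact span_qCoeff_gamma1 M k
  · intro i n
    exact hbS (e.symm i).2 n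

/-- The `q`-coefficients of a cusp form on `Γ₁(M)` (any weight) lie in the `ℤ`-span of a finite
set of complex numbers. -/
theorem exists_finset_qCoeff (M : ℕ) [NeZero M] (k : ℤ) (f : CuspForm (Gamma1 M) k) :
    ∃ T : Finset ℂ, ∀ n : ℕ, ModularFormClass.qCoeff f n ∈ Submodule.span ℤ (T : Set ℂ) := by
  classical
  have h1 := one_mem_strictPeriods_gamma1 M
  obtain ⟨r, g, hli, hspan, hint⟩ := exists_int_basis M k
  have hf : f ∈ Submodule.span ℂ (Set.range g) := by rw [hspan]; trivial
  obtain ⟨c, hc⟩ := (Submodule.mem_span_range_iff_exists_fun ℂ).mp hf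
  refine ⟨Finset.univ.image c, fun n => ?_⟩
  have hq : ModularFormClass.qCoeff f n = ∑ i, c i * ModularFormClass.qCoeff (g i) n := by
    have h2 : qExpCusp h1 k f = ∑ i, c i • qExpCusp h1 k (g i) := by
      rw [← hc, map_sum]
      exact Finset.sum_congr rfl fun i _ => map_smul _ _ _
    have h3 := congrArg (PowerSeries.coeff n) h2
    rw [map_sum] at h3
    simp only [qExpCusp_apply, PowerSeries.coeff_smul, smul_eq_mul] at h3
    exact h3
  rw [hq]
  refine Submodule.sum_mem _ fun i _ => ?_
  obtain ⟨z, hz⟩ := hint i n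
  rw [hz]
  have hmem : c i ∈ Submodule.span ℤ ((Finset.univ.image c : Finset ℂ) : Set ℂ) :=
    Submodule.subset_span (by simp)
  have := Submodule.smul_mem _ z hmem
  rwa [zsmul_eq_mul, mul_comm] at this

end

end Fermat.Agent.S48.IntBasis1
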